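/-
DS-F (helper9), file 1: **attached representations and the gluing lemma**.

`DsfAttached T a e ρ` : the representation `ρ : G_ℚ → GL₂(R)` is unramified outside `T` and the
Frobenius elements at `p ∉ T` have trace `a p` and determinant `e p`.

Gluing lemma (Deligne–Serre §8, last step; uses only the Frobenius density theorem of
`Lib/FrobDensity`): two complex representations of finite level attached to the same data outside
finite sets `T`, `T'` have the same traces, the same determinants and the same kernel; hence each of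
them is attached outside `T ∩ T'`.
-/
import Mathlib
import Fermat.Prelude.Def_GaloisRep_Residual
import Fermat.Prelude.Def_Deformations_MatrixRepresentation
import Fermat.Agent.Lib.S31.Trace.FrobPow
import Fermat.Agent.Lib.S31.Trace.PowTrace
import Fermat.Agent.Lib.DS.Group.Basic
import Fermat.Agent.Lib.DS.Lift.LiftComplex

set_option autoImplicit false
set_option linter.style.haveILetI false
set_option linter.unusedSectionVars false

open Matrix

namespace Fermat.Agent.DS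

local notation "Qbar" => AlgebraicClosure ℚ
local notation "GQ" => (AlgebraicClosure ℚ ≃ₐ[ℚ] AlgebraicClosure ℚ)

/-- `ρ` is unramified outside `T`, and the Frobenius elements at the primes `p ∉ T` have trace `a p`
and determinant `e p` -/
def DsfAttached {R : Type*} [CommRing R] (T : Set ℕ) (a e : ℕ → R) (ρ : GQ →* GL (Fin 2) R) :
    Prop :=
  ∀ p : ℕ, p.Prime → p ∉ T → ∀ A : ValuationSubring Qbar, A.LiesOverPrime p →
    (∀ σ ∈ A.inertiaSubgroupIn ℚ, ρ σ = 1) ∧
    ∀ σ : GQ, A.IsFrobeniusAt σ p →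
      ((ρ σ : GL (Fin 2) R) : Matrix (Fin 2) (Fin 2) R).trace = a p ∧
      ((ρ σ : GL (Fin 2) R) : Matrix (Fin 2) (Fin 2) R).det = e p

theorem DsfAttached.mono {R : Type*} [CommRing R] {T T' : Set ℕ} {a e : ℕ → R}
    {ρ : GQ →* GL (Fin 2) R} (h : DsfAttached T a e ρ) (hT : T ⊆ T') : DsfAttached T' a e ρ :=
  fun p hp hpT A hA => h p hp (fun h' => hpT (hT h')) A hA

/-- a level of `ρ`: a finite extension whose absolute Galois group is killed by `ρ` -/
def DsfLevel {M : Type*} [MulOneClass M] (ρ : GQ →* M) (L : IntermediateField ℚ Qbar) : Prop :=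
  ∀ σ : GQ, (∀ x ∈ L, σ x = x) → ρ σ = 1

theorem DsfLevel.mono {M : Type*} [MulOneClass M] {ρ : GQ →* M} {L L' : IntermediateField ℚ Qbar}
    (h : DsfLevel ρ L) (hL : L ≤ L') : DsfLevel ρ L' :=
  fun σ hσ => h σ fun x hx => hσ x (hL hx)

/-- two elements which agree on a level have the same image -/
theorem DsfLevel.apply_eq {M : Type*} [Group M] {ρ : GQ →* M} {L : IntermediateField ℚ Qbar}
    (h : DsfLevel ρ L) (σ τ : GQ) (hστ : ∀ x ∈ L, σ x = τ x) : ρ σ = ρ τ := by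
  have h1 : ρ (τ⁻¹ * σ) = 1 := by
    apply h
    intro x hx
    rw [AlgEquiv.mul_apply, hστ x hx]
    exact τ.symm_apply_apply x
  rw [map_mul, map_inv, inv_mul_eq_one] at h1
  exact h1.symm

/-- two finite levels are contained in a finite normal one -/
theorem dsf_exists_normal_level (L₁ L₂ : IntermediateField ℚ Qbar) (h₁ : FiniteDimensional ℚ L₁)
    (h₂ : FiniteDimensional ℚ L₂) :
    ∃ L : IntermediateField ℚ Qbar, FiniteDimensional ℚ L ∧ Normal ℚ L ∧ L₁ ≤ L ∧ L₂ ≤ L := by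
  haveI := h₁
  haveI := h₂
  haveI := Fermat.Agent.Lib.Helper6.isGalois_rat_algebraicClosure
  haveI : FiniteDimensional ℚ ↥(L₁ ⊔ L₂) := IntermediateField.finiteDimensional_sup L₁ L₂
  refine ⟨IntermediateField.normalClosure ℚ ↥(L₁ ⊔ L₂) Qbar,
    normalClosure.is_finiteDimensional ℚ _ Qbar, normalClosure.normal ℚ _ Qbar, ?_, ?_⟩
  · exact le_sup_left.trans (IntermediateField.le_normalClosure _)
  · exact le_sup_right.trans (IntermediateField.le_normalClosure _)

/-- on a finite normal level every element has finite order -/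
theorem dsf_exists_pow_fix (L : IntermediateField ℚ Qbar) [FiniteDimensional ℚ L] [Normal ℚ L]
    (τ : GQ) : ∃ d : ℕ, 0 < d ∧ ∀ x ∈ L, (τ ^ d) x = x := by
  set r := AlgEquiv.restrictNormalHom (F := ℚ) (K₁ := Qbar) L τ with hr
  refine ⟨orderOf r, orderOf_pos r, fun x hx => ?_⟩
  have h1 : algebraMap ↥L Qbar ((AlgEquiv.restrictNormalHom (F := ℚ)
      (K₁ := Qbar) ↥L (τ ^ orderOf r)) ⟨x, hx⟩) = (τ ^ orderOf r) (algebraMap ↥L Qbar ⟨x, hx⟩) :=
    AlgEquiv.restrictNormal_commutes (τ ^ orderOf r) ↥L ⟨x, hx⟩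
  rw [map_pow, ← hr, pow_orderOf_eq_one] at h1
  exact h1.symm

/-- the values of a representation of finite level have finite order -/
theorem dsf_exists_pow_eq_one {M : Type} [Group M] (ρ : GQ →* M)
    (hρ : GaloisFactorsThroughFiniteLevel ρ) (τ : GQ) : ∃ d : ℕ, 0 < d ∧ ρ τ ^ d = 1 := by
  obtain ⟨L₀, hL₀, hρ₀⟩ := hρ
  obtain ⟨L, hLfin, hLnorm, hL₀L, -⟩ := dsf_exists_normal_level L₀ L₀ hL₀ hL₀
  haveI := hLfin
  haveI := hLnorm
  obtain ⟨d, hd, hfix⟩ := dsf_exists_pow_fix L τ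
  refine ⟨d, hd, ?_⟩
  rw [← map_pow]
  exact hρ₀ _ fun x hx => hfix x (hL₀L hx)

/-- a complex `2 × 2` matrix of finite order with trace `2` is the identity -/
theorem dsf_eq_one_of_trace_eq_two (M : Matrix (Fin 2) (Fin 2) ℂ) (m : ℕ) (hm : 0 < m)
    (hM : M ^ m = 1) (htr : M.trace = 2) : M = 1 := by
  obtain ⟨α, β, hα, hβ, hαβ, hdet⟩ := dsl_roots_of_pow_eq_one M m hM
  have hnα : ‖α‖ = 1 := Complex.norm_eq_one_of_pow_eq_one hα hm.ne'
  have hnβ : ‖β‖ = 1 := Complex.norm_eq_one_of_pow_eq_one hβ hm.ne'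
  have hsum : α + β = 2 := by rw [← hαβ, htr]
  have hre : α.re + β.re = 2 := by
    have := congrArg Complex.re hsum
    simpa using this
  have hαre : α.re ≤ 1 := hnα ▸ Complex.re_le_norm α
  have hβre : β.re ≤ 1 := hnβ ▸ Complex.re_le_norm β
  have hα1 : α = 1 := by
    have h1 : α.re = 1 := by linarith
    have h2 : α.re ^ 2 + α.im ^ 2 = 1 := by
      have := Complex.sq_norm α
      rw [hnα, Complex.normSq_apply] at this
      nlinarith [this]
    have h3 : α.im = 0 := by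
      have : α.im ^ 2 = 0 := by rw [h1] at h2; linarith
      exact pow_eq_zero_iff (two_ne_zero) |>.mp this
    exact Complex.ext (by simpa using h1) (by simpa using h3)
  have hβ1 : β = 1 := by
    have := hsum
    rw [hα1] at this
    linear_combination this
  have hd1 : M.det = 1 := by rw [hdet, hα1, hβ1, mul_one]
  have hN := dsg_sub_smul_one_sq M 1 (by rw [htr, mul_one]) (by rw [hd1, one_pow])
  rw [one_smul] at hN
  obtain ⟨k, rfl⟩ : ∃ k, m = k + 1 := ⟨m - 1, by omega⟩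
  have hpow := dsg_pow_of_sq_zero (M - 1) hN 1 k
  rw [one_smul, add_sub_cancel, hM, one_pow, one_smul, one_pow, mul_one] at hpow
  have h0 : (((k + 1 : ℕ) : ℂ)) • (M - 1) = 0 := by
    have := hpow
    rw [left_eq_add] at this
    exact this
  have hk : (((k + 1 : ℕ) : ℂ)) ≠ 0 := by exact_mod_cast Nat.succ_ne_zero k
  have h1 : M - 1 = 0 := (smul_eq_zero.mp h0).resolve_left hk
  exact sub_eq_zero.mp h1

section glue

variable {T T' : Finset ℕ} {a e : ℕ → ℂ} {ρ ρ' : GQ →* GL (Fin 2) ℂ}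

/-- two representations of finite level attached to the same data outside finite sets of primes
have the same traces and determinants -/
theorem dsf_trace_det_eq (hρ : GaloisFactorsThroughFiniteLevel ρ)
    (hρ' : GaloisFactorsThroughFiniteLevel ρ') (h : DsfAttached (↑T) a e ρ)
    (h' : DsfAttached (↑T') a e ρ') (g : GQ) :
    ((ρ g : GL (Fin 2) ℂ) : Matrix (Fin 2) (Fin 2) ℂ).trace
        = ((ρ' g : GL (Fin 2) ℂ) : Matrix (Fin 2) (Fin 2) ℂ).trace ∧
      ((ρ g : GL (Fin 2) ℂ) : Matrix (Fin 2) (Fin 2) ℂ).det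
        = ((ρ' g : GL (Fin 2) ℂ) : Matrix (Fin 2) (Fin 2) ℂ).det := by
  classical
  obtain ⟨L₁, hL₁, hρ₁⟩ := hρ
  obtain ⟨L₂, hL₂, hρ₂⟩ := hρ'
  obtain ⟨L, hLfin, hLnorm, hL₁L, hL₂L⟩ := dsf_exists_normal_level L₁ L₂ hL₁ hL₂
  haveI := hLfin
  haveI := hLnorm
  have hlev : DsfLevel ρ L := DsfLevel.mono (L := L₁) hρ₁ hL₁L
  have hlev' : DsfLevel ρ' L := DsfLevel.mono (L := L₂) hρ₂ hL₂L
  obtain ⟨l, hl, hlT, P, φ, hP, hφ, b, hb⟩ :=
    Fermat.Agent.S31T.s31t_exists_frobenius_pow L g (T ∪ T')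
  have hlT1 : l ∉ (↑T : Set ℕ) := fun h1 => hlT (Finset.mem_union_left _ (Finset.mem_coe.mp h1))
  have hlT2 : l ∉ (↑T' : Set ℕ) := fun h1 => hlT (Finset.mem_union_right _ (Finset.mem_coe.mp h1))
  obtain ⟨ht, hd⟩ := (h l hl hlT1 P hP).2 φ hφ
  obtain ⟨ht', hd'⟩ := (h' l hl hlT2 P hP).2 φ hφ
  have e1 : ρ g = ρ φ ^ b := by rw [← map_pow]; exact hlev.apply_eq g (φ ^ b) hb
  have e2 : ρ' g = ρ' φ ^ b := by rw [← map_pow]; exact hlev'.apply_eq g (φ ^ b) hb
  rw [e1, e2]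
  simp only [Units.val_pow_eq_pow_val]
  refine ⟨?_, ?_⟩
  · rw [Fermat.Agent.S31T.s31t_trace_pow_matrix, Fermat.Agent.S31T.s31t_trace_pow_matrix, ht, hd,
      ht', hd']
  · rw [Matrix.det_pow, Matrix.det_pow, hd, hd']

/-- ... and the same kernel -/
theorem dsf_ker_eq (hρ : GaloisFactorsThroughFiniteLevel ρ)
    (hρ' : GaloisFactorsThroughFiniteLevel ρ') (h : DsfAttached (↑T) a e ρ)
    (h' : DsfAttached (↑T') a e ρ') (g : GQ) (hg : ρ' g = 1) : ρ g = 1 := by
  obtain ⟨d, hd, hpow⟩ := dsf_exists_pow_eq_one ρ hρ g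
  have htr := (dsf_trace_det_eq hρ hρ' h h' g).1
  rw [hg] at htr
  have h2 : ((ρ g : GL (Fin 2) ℂ) : Matrix (Fin 2) (Fin 2) ℂ).trace = 2 := by
    rw [htr, Units.val_one, Matrix.trace_one]
    simp
  have hpow' : ((ρ g : GL (Fin 2) ℂ) : Matrix (Fin 2) (Fin 2) ℂ) ^ d = 1 := by
    rw [← Units.val_pow_eq_pow_val, hpow, Units.val_one]
  exact Units.ext (dsf_eq_one_of_trace_eq_two _ d hd hpow' h2)

/-- **gluing lemma** -/
theorem dsf_glue (hρ : GaloisFactorsThroughFiniteLevel ρ)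
    (hρ' : GaloisFactorsThroughFiniteLevel ρ') (h : DsfAttached (↑T) a e ρ)
    (h' : DsfAttached (↑T') a e ρ') : DsfAttached (↑T ∩ ↑T') a e ρ := by
  intro p hp hpT A hA
  by_cases hpT1 : p ∈ (↑T : Set ℕ)
  · have hpT2 : p ∉ (↑T' : Set ℕ) := fun h2 => hpT ⟨hpT1, h2⟩
    obtain ⟨hin, hfr⟩ := h' p hp hpT2 A hA
    refine ⟨fun σ hσ => dsf_ker_eq hρ hρ' h h' σ (hin σ hσ), fun σ hσ => ?_⟩
    obtain ⟨e1, e2⟩ := dsf_trace_det_eq hρ hρ' h h' σ
    obtain ⟨e3, e4⟩ := hfr σ hσ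
    exact ⟨e1.trans e3, e2.trans e4⟩
  · exact h p hp hpT1 A hA

end glue

end Fermat.Agent.DS
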