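/-
DS-F (helper9), file 2: **the black-box inputs of the final assembly**, in the shapes in which the
assembly uses them.

* `DsfDensityLe X η` : the set `X` of primes has upper Dirichlet density `≤ η`, in the
  "finite partial sums" form of DS-R: `∑_{p ∈ P} p^{-s} ≤ η log (1/(s-1)) + K` for all finite
  `P ⊆ X` and `1 < s < 2`;
* `DsfChebCover` : Chebotarev, cover form (DS-C (C7-ii));
* `DsfChebChars` : Chebotarev for two characters (DS-C (C7-iii), the corollary used in (DS-8));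
* `DsfResidual T a e ℓ ρbar` : `ρbar : G_ℚ → GL₂(𝔽_ℓ)` is of finite level, semisimple, unramified
  outside `T ∪ {ℓ}` with Frobenius traces/determinants the reductions (`dslRed ℓ`) of `a p`, `e p`.
-/
import Mathlib
import Fermat.Agent.Lib.DS.Final.Glue
import Fermat.Agent.Lib.DS.Group.SL2

set_option autoImplicit false

open Matrix

namespace Fermat.Agent.DS

local notation "Qbar" => AlgebraicClosure ℚ
local notation "GQ" => (AlgebraicClosure ℚ ≃ₐ[ℚ] AlgebraicClosure ℚ)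

/-- upper Dirichlet density `≤ η`, finite-partial-sum form -/
def DsfDensityLe (X : Set ℕ) (η : ℝ) : Prop :=
  ∃ K : ℝ, ∀ s : ℝ, 1 < s → s < 2 → ∀ P : Finset ℕ, (∀ p ∈ P, p.Prime ∧ p ∈ X) →
    ∑ p ∈ P, (p : ℝ) ^ (-s) ≤ η * Real.log (1 / (s - 1)) + K

/-- the set of values of `ρ` at the Frobenius elements of the primes outside `T ∪ X` -/
def dsfFrobValues {Q : Type} [Group Q] (ρ : GQ →* Q) (T : Finset ℕ) (X : Set ℕ) : Set Q :=
  {q : Q | ∃ p : ℕ, p.Prime ∧ p ∉ T ∧ p ∉ X ∧ ∃ (A : ValuationSubring Qbar) (φ : GQ),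
    A.LiesOverPrime p ∧ A.IsFrobeniusAt φ p ∧ ρ φ = q}

/-- **Chebotarev, cover form**: the Frobenius elements of the primes outside a finite set and
outside a set of upper density `≤ η` cover at least `(1 - η) |G|` elements of `G` -/
def DsfChebCover : Prop :=
  ∀ {Q : Type} [Group Q] (ρ : GQ →* Q), GaloisFactorsThroughFiniteLevel ρ →
    ∀ (T : Finset ℕ) (X : Set ℕ) (η : ℝ), DsfDensityLe X η →
      (1 - η) * (Nat.card ρ.range : ℝ) ≤ ((dsfFrobValues ρ T X).ncard : ℝ)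

/-- **Chebotarev for two characters**: if `b p = χ₁(Frob_p) + χ₂(Frob_p)` for `p ∉ T` then
`∑_p ‖b p‖² p^{-s} ≥ (2 - ε) log (1/(s-1)) - K` (finite partial sums) -/
def DsfChebChars : Prop :=
  ∀ (χ₁ χ₂ : GQ →* ℂˣ), GaloisFactorsThroughFiniteLevel χ₁ → GaloisFactorsThroughFiniteLevel χ₂ →
    ∀ (T : Finset ℕ) (b : ℕ → ℂ),
      (∀ p : ℕ, p.Prime → p ∉ T → ∀ (A : ValuationSubring Qbar) (φ : GQ), A.LiesOverPrime p →
        A.IsFrobeniusAt φ p → b p = ((χ₁ φ : ℂˣ) : ℂ) + ((χ₂ φ : ℂˣ) : ℂ)) →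
      ∀ ε : ℝ, 0 < ε → ∃ K : ℝ, ∀ s : ℝ, 1 < s → s < 2 →
        ∃ P : Finset ℕ, (∀ p ∈ P, p.Prime ∧ p ∉ T) ∧
          (2 - ε) * Real.log (1 / (s - 1)) - K ≤ ∑ p ∈ P, ‖b p‖ ^ 2 * (p : ℝ) ^ (-s)

/-- the **Rankin bound** (DS-R) for a family of complex numbers indexed by the primes outside `T` -/
def DsfRankin (T : Finset ℕ) (a : ℕ → ℂ) : Prop :=
  ∃ C : ℝ, ∀ s : ℝ, 1 < s → s < 2 → ∀ P : Finset ℕ, (∀ p ∈ P, p.Prime ∧ p ∉ T) →
    ∑ p ∈ P, ‖a p‖ ^ 2 * (p : ℝ) ^ (-s) ≤ Real.log (1 / (s - 1)) + C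

/-- `ρbar` is a **residual representation** attached to `(a, e)` modulo `ℓ` outside `T ∪ {ℓ}` -/
structure DsfResidual (T : Finset ℕ) (a e : ℕ → ℂ) (ℓ : ℕ) [Fact ℓ.Prime]
    (ρbar : GQ →* GL (Fin 2) (ZMod ℓ)) : Prop where
  level : GaloisFactorsThroughFiniteLevel ρbar
  semisimple : DsgSemisimple ρbar.range
  attached : ∀ p : ℕ, p.Prime → p ∉ T → p ≠ ℓ → ∀ A : ValuationSubring Qbar, A.LiesOverPrime p →
    (∀ σ ∈ A.inertiaSubgroupIn ℚ, ρbar σ = 1) ∧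
    ∀ σ : GQ, A.IsFrobeniusAt σ p → ∃ t d : integralClosure ℤ ℂ, (t : ℂ) = a p ∧ (d : ℂ) = e p ∧
      dslRed ℓ t = dslResMap ℓ
        ((ρbar σ : GL (Fin 2) (ZMod ℓ)) : Matrix (Fin 2) (Fin 2) (ZMod ℓ)).trace ∧
      dslRed ℓ d = dslResMap ℓ
        ((ρbar σ : GL (Fin 2) (ZMod ℓ)) : Matrix (Fin 2) (Fin 2) (ZMod ℓ)).det

/-- residual representations exist for arbitrarily large `ℓ` -/
def DsfResidualInf (T : Finset ℕ) (a e : ℕ → ℂ) : Prop :=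
  ∀ B : ℕ, ∃ (ℓ : ℕ) (_ : Fact ℓ.Prime) (ρbar : GQ →* GL (Fin 2) (ZMod ℓ)),
    B < ℓ ∧ DsfResidual T a e ℓ ρbar

end Fermat.Agent.DS
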