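/-
DS-F (helper9), file 3: **(DS-3) + (DS-5) + (DS-6): the images of the residual representations are
bounded independently of `ℓ`**.

Input: weights `w p ≥ 0` with `∑_{p ∈ P} w p p^{-s} ≤ D log (1/(s-1)) + C` (Rankin for all
conjugates) and a finite set `Y ∋ (a p, e p)` for all `p` with `w p ≤ 120 D`.  Then for every residual
representation `ρbar` modulo `ℓ` attached to `(a, e)`: `|im ρbar| ≤ max (240 |Y|) ((2|Y|+1)^4)`.
-/
import Mathlib
import Fermat.Agent.Lib.DS.Final.Defs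
import Fermat.Agent.Lib.DS.Group.Main

set_option autoImplicit false
set_option linter.style.haveILetI false

open Matrix Polynomial

namespace Fermat.Agent.DS

local notation "Qbar" => AlgebraicClosure ℚ
local notation "GQ" => (AlgebraicClosure ℚ ≃ₐ[ℚ] AlgebraicClosure ℚ)

section poly

variable (ℓ : ℕ) [Fact ℓ.Prime]

/-- the polynomial `X² - t̄ X + d̄` attached to a pair `(t, d)` of complex numbers which are algebraic
integers with reductions in `𝔽_ℓ` (and `0` otherwise) -/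
noncomputable def dsfPoly (y : ℂ × ℂ) : (ZMod ℓ)[X] :=
  open Classical in
  if h : ∃ uv : ZMod ℓ × ZMod ℓ, ∃ t d : integralClosure ℤ ℂ, (t : ℂ) = y.1 ∧ (d : ℂ) = y.2 ∧
      dslRed ℓ t = dslResMap ℓ uv.1 ∧ dslRed ℓ d = dslResMap ℓ uv.2
  then X ^ 2 - C h.choose.1 * X + C h.choose.2 else 0

theorem dsfPoly_eq (y : ℂ × ℂ) (u v : ZMod ℓ) (t d : integralClosure ℤ ℂ) (ht : (t : ℂ) = y.1)
    (hd : (d : ℂ) = y.2) (hu : dslRed ℓ t = dslResMap ℓ u) (hv : dslRed ℓ d = dslResMap ℓ v) :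
    dsfPoly ℓ y = X ^ 2 - C u * X + C v := by
  classical
  have h : ∃ uv : ZMod ℓ × ZMod ℓ, ∃ t d : integralClosure ℤ ℂ, (t : ℂ) = y.1 ∧ (d : ℂ) = y.2 ∧
      dslRed ℓ t = dslResMap ℓ uv.1 ∧ dslRed ℓ d = dslResMap ℓ uv.2 :=
    ⟨(u, v), t, d, ht, hd, hu, hv⟩
  rw [dsfPoly, dif_pos h]
  obtain ⟨t', d', ht', hd', hu', hv'⟩ := h.choose_spec
  have e1 : t' = t := Subtype.ext (ht'.trans ht.symm)
  have e2 : d' = d := Subtype.ext (hd'.trans hd.symm)
  have e3 : h.choose.1 = u := dslResMap_injective ℓ (by rw [← hu', e1, hu])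
  have e4 : h.choose.2 = v := dslResMap_injective ℓ (by rw [← hv', e2, hv])
  rw [e3, e4]

end poly

/-- **the images of the residual representations are uniformly bounded** -/
theorem dsf_card_range_le (hcov : DsfChebCover) (T : Finset ℕ) (a e : ℕ → ℂ) (w : ℕ → ℝ)
    (D C : ℝ) (hD : 0 < D)
    (hw : ∀ s : ℝ, 1 < s → s < 2 → ∀ P : Finset ℕ, (∀ p ∈ P, p.Prime ∧ p ∉ T) →
      ∑ p ∈ P, w p * (p : ℝ) ^ (-s) ≤ D * Real.log (1 / (s - 1)) + C)
    (Y : Finset (ℂ × ℂ)) (hY : ∀ p : ℕ, p.Prime → p ∉ T → w p ≤ 120 * D → (a p, e p) ∈ Y)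
    (ℓ : ℕ) [Fact ℓ.Prime] (ρbar : GQ →* GL (Fin 2) (ZMod ℓ)) (hres : DsfResidual T a e ℓ ρbar) :
    Nat.card ρbar.range ≤ max (240 * Y.card) ((2 * Y.card + 1) ^ 4) := by
  classical
  have hD' : 0 < 120 * D := by positivity
  set X : Set ℕ := {p | p.Prime ∧ p ∉ T ∧ 120 * D < w p} with hXdef
  -- (DS-3)
  have hX : DsfDensityLe X (1 / 120) := by
    refine ⟨C / (120 * D), fun s hs1 hs2 P hP => ?_⟩
    have h1 : ∑ p ∈ P, (p : ℝ) ^ (-s) ≤ ∑ p ∈ P, (w p * (p : ℝ) ^ (-s)) / (120 * D) := by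
      refine Finset.sum_le_sum fun p hp => ?_
      have hpX := (hP p hp).2
      have h2 : (0 : ℝ) ≤ (p : ℝ) ^ (-s) := Real.rpow_nonneg (Nat.cast_nonneg p) _
      rw [le_div_iff₀ hD']
      have h3 : 120 * D ≤ w p := le_of_lt hpX.2.2
      nlinarith
    have h4 := hw s hs1 hs2 P fun p hp => ⟨(hP p hp).1, (hP p hp).2.2.1⟩
    rw [← Finset.sum_div] at h1
    refine h1.trans ?_
    rw [div_le_iff₀ hD']
    have h5 : (1 / 120 * Real.log (1 / (s - 1)) + C / (120 * D)) * (120 * D)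
        = D * Real.log (1 / (s - 1)) + C := by
      field_simp
    rw [h5]
    exact h4
  -- (DS-5)
  have hc := hcov ρbar hres.level (insert ℓ T) X (1 / 120) hX
  set H₀ := dsfFrobValues ρbar (insert ℓ T) X with hH₀
  set H : Set ρbar.range := {g | (g : GL (Fin 2) (ZMod ℓ)) ∈ H₀} with hHdef
  have hsub : H₀ ⊆ Set.range (Subtype.val : ρbar.range → GL (Fin 2) (ZMod ℓ)) := by
    rintro q ⟨p, -, -, -, A, φ, -, -, rfl⟩
    rw [Subtype.range_coe]
    exact ⟨φ, rfl⟩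
  have hncard : H.ncard = H₀.ncard :=
    Set.ncard_preimage_of_injective_subset_range Subtype.val_injective hsub
  have hH : 119 * Nat.card ρbar.range ≤ 120 * H.ncard := by
    rw [hncard]
    have h1 : (119 : ℝ) * (Nat.card ρbar.range : ℝ) ≤ 120 * (H₀.ncard : ℝ) := by
      have : (1 - 1 / 120 : ℝ) * (Nat.card ρbar.range : ℝ) ≤ (H₀.ncard : ℝ) := hc
      linarith
    exact_mod_cast h1
  -- the characteristic polynomials on `H`
  have hM : ((fun g : ρbar.range =>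
      ((g : GL (Fin 2) (ZMod ℓ)).1 : Matrix (Fin 2) (Fin 2) (ZMod ℓ)).charpoly) '' H).ncard
        ≤ Y.card := by
    have h1 : ((fun g : ρbar.range =>
        ((g : GL (Fin 2) (ZMod ℓ)).1 : Matrix (Fin 2) (Fin 2) (ZMod ℓ)).charpoly) '' H)
          ⊆ dsfPoly ℓ '' (↑Y : Set (ℂ × ℂ)) := by
      rintro _ ⟨g, hg, rfl⟩
      obtain ⟨p, hp, hpT, hpX, A, φ, hA, hφ, hφg⟩ := hg
      have hpT' : p ∉ T := fun h => hpT (Finset.mem_insert_of_mem h)
      have hpℓ : p ≠ ℓ := fun h => hpT (h ▸ Finset.mem_insert_self _ _)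
      have hwp : w p ≤ 120 * D := by
        by_contra hcon
        exact hpX ⟨hp, hpT', not_le.mp hcon⟩
      obtain ⟨t, d, ht, hd, hrt, hrd⟩ := (hres.attached p hp hpT' hpℓ A hA).2 φ hφ
      refine ⟨(a p, e p), Finset.mem_coe.mpr (hY p hp hpT' hwp), ?_⟩
      show dsfPoly ℓ (a p, e p)
        = ((g : GL (Fin 2) (ZMod ℓ)).1 : Matrix (Fin 2) (Fin 2) (ZMod ℓ)).charpoly
      rw [Matrix.charpoly_fin_two, ← hφg]
      exact dsfPoly_eq ℓ (a p, e p) _ _ t d ht hd hrt hrd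
    refine (Set.ncard_le_ncard h1 (Set.toFinite _)).trans ?_
    refine (Set.ncard_image_le (Set.toFinite _)).trans ?_
    rw [Set.ncard_coe_finset]
  exact dsg_card_le ℓ ρbar.range hres.semisimple Y.card H hH hM

end Fermat.Agent.DS
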