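/-
DS-F (lead), file 5: **(DS-8) irreducibility**.

A reducible two-dimensional complex representation has trace `χ₁ + χ₂` for two characters `χ₁`, `χ₂`
(an invariant line gives `χ₁`, and `χ₂ = det / χ₁`; the trace identity is Cayley–Hamilton on the
eigenvector).  If the representation is of finite level and attached to `(a, e)` outside `T`, then
Chebotarev for the two characters gives `∑ ‖a p‖² p^{-s} ≥ (2 - 1/2) log (1/(s-1)) - K`, which
contradicts the Rankin bound `∑ ‖a p‖² p^{-s} ≤ log (1/(s-1)) + C` as `s → 1`.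
-/
import Mathlib
import Fermat.Agent.Lib.DS.Final.Defs

set_option autoImplicit false
set_option linter.style.haveILetI false

open Matrix

namespace Fermat.Agent.DS

local notation "Qbar" => AlgebraicClosure ℚ
local notation "GQ" => (AlgebraicClosure ℚ ≃ₐ[ℚ] AlgebraicClosure ℚ)

/-- a two-dimensional representation without invariant line is irreducible -/
theorem dsf_isIrreducible_of_forall_exists {G : Type} [Group G] (ρ : G →* GL (Fin 2) ℂ)
    (h : ∀ v : Fin 2 → ℂ, v ≠ 0 → ∃ g : G, ∀ c : ℂ,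
      c • v ≠ ((ρ g : GL (Fin 2) ℂ) : Matrix (Fin 2) (Fin 2) ℂ).mulVec v) :
    (Deformation.matrixRepresentation ρ).IsIrreducible := by
  refine { exists_pair_ne := ⟨⊥, ⊤, fun hbt => ?_⟩, eq_bot_or_eq_top := fun W => ?_ }
  · have h1 := congrArg Subrepresentation.toSubmodule hbt
    exact bot_ne_top (α := Submodule ℂ (Fin 2 → ℂ)) h1
  · by_contra hcon
    push Not at hcon
    obtain ⟨hbot, htop⟩ := hcon
    have hbot' : W.toSubmodule ≠ ⊥ := fun h1 =>
      hbot (Subrepresentation.toSubmodule_injective (h1.trans rfl))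
    obtain ⟨v, hvW, hv0⟩ := Submodule.exists_mem_ne_zero_of_ne_bot hbot'
    obtain ⟨g, hg⟩ := h v hv0
    set w : Fin 2 → ℂ := ((ρ g : GL (Fin 2) ℂ) : Matrix (Fin 2) (Fin 2) ℂ).mulVec v with hw
    have hwW : w ∈ W.toSubmodule := by
      have := W.apply_mem_toSubmodule g hvW
      rwa [Deformation.matrixRepresentation_apply] at this
    have hli : LinearIndependent ℂ ![v, w] := (LinearIndependent.pair_iff' hv0).mpr hg
    have hspan : Submodule.span ℂ (Set.range ![v, w]) ≤ W.toSubmodule := by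
      rw [Submodule.span_le]
      rintro x ⟨i, rfl⟩
      fin_cases i
      · exact hvW
      · exact hwW
    have hfr : Module.finrank ℂ (Submodule.span ℂ (Set.range ![v, w])) = 2 := by
      rw [finrank_span_eq_card hli, Fintype.card_fin]
    have htop' : Submodule.span ℂ (Set.range ![v, w]) = ⊤ := by
      apply Submodule.eq_top_of_finrank_eq
      rw [hfr, Module.finrank_fin_fun]
    apply htop
    apply Subrepresentation.toSubmodule_injective
    exact top_le_iff.mp (htop' ▸ hspan)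

/-- an eigenvalue `c` of a `2 × 2` matrix satisfies `c² - tr c + det = 0` -/
theorem dsf_eigen_quadratic (M : Matrix (Fin 2) (Fin 2) ℂ) (v : Fin 2 → ℂ) (hv : v ≠ 0) (c : ℂ)
    (h : c • v = M.mulVec v) : c * c - M.trace * c + M.det = 0 := by
  have h0 := congrFun h 0
  have h1 := congrFun h 1
  simp only [Pi.smul_apply, smul_eq_mul, Matrix.mulVec, dotProduct, Fin.sum_univ_two] at h0 h1
  rw [Matrix.trace_fin_two, Matrix.det_fin_two]
  have hv' : v 0 ≠ 0 ∨ v 1 ≠ 0 := by
    by_contra hcon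
    push Not at hcon
    apply hv
    ext i
    fin_cases i
    · exact hcon.1
    · exact hcon.2
  rcases hv' with h2 | h2
  · apply mul_left_cancel₀ h2
    linear_combination (c - M 1 1) * h0 + M 0 1 * h1
  · apply mul_left_cancel₀ h2
    linear_combination M 1 0 * h0 + (c - M 0 0) * h1

/-- a reducible two-dimensional representation has trace `χ₁ + χ₂` -/
theorem dsf_exists_chars {G : Type} [Group G] (ρ : G →* GL (Fin 2) ℂ)
    (h : ¬ (Deformation.matrixRepresentation ρ).IsIrreducible) :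
    ∃ χ₁ χ₂ : G →* ℂˣ, (∀ g, ρ g = 1 → χ₁ g = 1) ∧ (∀ g, ρ g = 1 → χ₂ g = 1) ∧
      ∀ g, ((ρ g : GL (Fin 2) ℂ) : Matrix (Fin 2) (Fin 2) ℂ).trace
        = ((χ₁ g : ℂˣ) : ℂ) + ((χ₂ g : ℂˣ) : ℂ) := by
  have h1 : ∃ v : Fin 2 → ℂ, v ≠ 0 ∧ ∀ g : G, ∃ c : ℂ,
      c • v = ((ρ g : GL (Fin 2) ℂ) : Matrix (Fin 2) (Fin 2) ℂ).mulVec v := by
    by_contra hcon
    push Not at hcon
    exact h (dsf_isIrreducible_of_forall_exists ρ hcon)
  obtain ⟨v, hv, hc⟩ := h1
  choose c hc using hc
  have hinj : ∀ x y : ℂ, x • v = y • v → x = y := fun x y hxy => smul_left_injective ℂ hv hxy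
  have hmul : ∀ g g' : G, c (g * g') = c g * c g' := by
    intro g g'
    apply hinj
    rw [hc, map_mul, Units.val_mul, ← Matrix.mulVec_mulVec, ← hc g', Matrix.mulVec_smul, ← hc g,
      smul_smul, mul_comm]
  have hone : c 1 = 1 := by
    apply hinj
    rw [hc, map_one, Units.val_one, Matrix.one_mulVec, one_smul]
  have hc0 : ∀ g, c g ≠ 0 := by
    intro g h0
    have := hmul g g⁻¹
    rw [mul_inv_cancel, hone, h0, zero_mul] at this
    exact one_ne_zero this
  let χ₁ : G →* ℂˣ :=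
    { toFun := fun g => Units.mk0 (c g) (hc0 g)
      map_one' := Units.ext hone
      map_mul' := fun g g' => Units.ext (hmul g g') }
  let χ₂ : G →* ℂˣ := (Matrix.GeneralLinearGroup.det.comp ρ) / χ₁
  have hχ₁ : ∀ g, ((χ₁ g : ℂˣ) : ℂ) = c g := fun g => rfl
  have hχ₂ : ∀ g, ((χ₂ g : ℂˣ) : ℂ)
      = ((ρ g : GL (Fin 2) ℂ) : Matrix (Fin 2) (Fin 2) ℂ).det / c g := by
    intro g
    show ((Matrix.GeneralLinearGroup.det (ρ g) / χ₁ g : ℂˣ) : ℂ) = _
    rw [Units.val_div_eq_div_val, hχ₁]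
    rfl
  have hker₁ : ∀ g, ρ g = 1 → χ₁ g = 1 := by
    intro g hg
    apply Units.ext
    rw [hχ₁, Units.val_one]
    apply hinj
    rw [hc, hg, Units.val_one, Matrix.one_mulVec, one_smul]
  refine ⟨χ₁, χ₂, hker₁, fun g hg => ?_, fun g => ?_⟩
  · show Matrix.GeneralLinearGroup.det (ρ g) / χ₁ g = 1
    rw [hker₁ g hg, hg, map_one, div_one]
  · rw [hχ₁, hχ₂]
    have hq := dsf_eigen_quadratic _ v hv (c g) (hc g)
    have := hc0 g
    field_simp
    linear_combination (-1 : ℂ) * hq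

/-- **(DS-8) irreducibility**: a complex representation of finite level attached outside a finite
set `T` to data `(a, e)` satisfying the Rankin bound is irreducible -/
theorem dsf_irreducible (hchar : DsfChebChars) (T : Finset ℕ) (a e : ℕ → ℂ) (hR : DsfRankin T a)
    (ρ : GQ →* GL (Fin 2) ℂ) (hρ : GaloisFactorsThroughFiniteLevel ρ)
    (hatt : DsfAttached (↑T) a e ρ) : (Deformation.matrixRepresentation ρ).IsIrreducible := by
  by_contra hirr
  obtain ⟨χ₁, χ₂, h1, h2, htr⟩ := dsf_exists_chars ρ hirr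
  obtain ⟨L, hL, hρL⟩ := hρ
  have hl1 : GaloisFactorsThroughFiniteLevel χ₁ := ⟨L, hL, fun σ hσ => h1 σ (hρL σ hσ)⟩
  have hl2 : GaloisFactorsThroughFiniteLevel χ₂ := ⟨L, hL, fun σ hσ => h2 σ (hρL σ hσ)⟩
  obtain ⟨K, hK⟩ := hchar χ₁ χ₂ hl1 hl2 T a
    (fun p hp hpT A φ hA hφ => by
      rw [← ((hatt p hp (fun h => hpT (Finset.mem_coe.mp h)) A hA).2 φ hφ).1, htr])
    (1 / 2) (by norm_num)
  obtain ⟨C, hC⟩ := hR
  set M : ℝ := max (2 * (K + C) + 1) 1 with hMdef
  have hM1 : 1 ≤ M := le_max_right _ _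
  have hM2 : 2 * (K + C) + 1 ≤ M := le_max_left _ _
  set s : ℝ := 1 + Real.exp (-M) with hs
  have hs1 : 1 < s := by rw [hs]; linarith [Real.exp_pos (-M)]
  have hs2 : s < 2 := by
    have : Real.exp (-M) < 1 := by
      rw [Real.exp_lt_one_iff]
      linarith
    rw [hs]; linarith
  obtain ⟨P, hP, hlow⟩ := hK s hs1 hs2
  have hup := hC s hs1 hs2 P hP
  have hlog : Real.log (1 / (s - 1)) = M := by
    have : s - 1 = Real.exp (-M) := by rw [hs]; ring
    rw [this, one_div, ← Real.exp_neg, neg_neg, Real.log_exp]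
  rw [hlog] at hlow hup
  linarith

end Fermat.Agent.DS
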