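/-
DS-F (lead), file 4: **(DS-7) the pigeonhole step and the gluing of two lifts**.

Input: residual representations `ρbar_ℓ` attached to `(a, e)` modulo infinitely many `ℓ`, with images
of order `≤ A₀` (uniformly in `ℓ`).  For `ℓ > A₀` the representation `ρbar_ℓ` lifts to a complex
representation `ρ_ℓ` with the same kernel (DS-L), and the pairs `(tr ρ_ℓ(g), det ρ_ℓ(g))` lie in the
finite set `dsfPairs (A₀)!` of pairs `(α + β, α β)` of `(A₀)!`-th roots of unity.  Since a nonzero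
algebraic integer is a unit modulo almost all `ℓ`:

* every `(a p, e p)`, `p ∉ T`, lies in `dsfPairs (A₀)!`;
* for `ℓ` large, `ρ_ℓ` is attached to `(a, e)` outside `T ∪ {ℓ}`;
* two such `ℓ` and the gluing lemma `dsf_glue` give a representation attached outside `T`.
-/
import Mathlib
import Fermat.Agent.Lib.DS.Final.Defs
import Fermat.Agent.Lib.DS.Lift.Extra
import Fermat.Agent.Lib.Helper6.FrobeniusExists

set_option autoImplicit false
set_option linter.style.haveILetI false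

open Matrix Polynomial

namespace Fermat.Agent.DS

local notation "Qbar" => AlgebraicClosure ℚ
local notation "GQ" => (AlgebraicClosure ℚ ≃ₐ[ℚ] AlgebraicClosure ℚ)
local notation "Zbar" => integralClosure ℤ ℂ

/-- a nonzero algebraic integer has nonzero reduction modulo all large primes -/
theorem dsf_exists_bound_ne_zero (x : Zbar) (hx : x ≠ 0) :
    ∃ B : ℕ, ∀ (ℓ : ℕ) [Fact ℓ.Prime], B < ℓ → dslRed ℓ x ≠ 0 := by
  refine ⟨((minpoly ℤ x).coeff 0).natAbs, fun ℓ _ hℓ h0 => ?_⟩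
  have h1 := dsl_dvd_of_dslRed_eq_zero ℓ x h0
  have h2 := dsl_minpoly_coeff_zero_ne_zero x hx
  have h3 : ℓ ∣ ((minpoly ℤ x).coeff 0).natAbs := Int.natCast_dvd.mp h1
  have h4 := Nat.le_of_dvd (Int.natAbs_pos.mpr h2) h3
  omega

/-- the reduction maps modulo all large primes are injective on a given finite set of algebraic
integers -/
theorem dsf_exists_bound_injOn (S : Finset Zbar) :
    ∃ B : ℕ, ∀ (ℓ : ℕ) [Fact ℓ.Prime], B < ℓ → ∀ x ∈ S, ∀ y ∈ S,
      dslRed ℓ x = dslRed ℓ y → x = y := by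
  classical
  choose! f hf using dsf_exists_bound_ne_zero
  refine ⟨(S ×ˢ S).sup (fun z => f (z.1 - z.2)), fun ℓ _ hℓ x hx y hy hxy => ?_⟩
  by_contra hne
  have h1 : x - y ≠ 0 := sub_ne_zero.mpr hne
  have h2 : f (x - y) ≤ (S ×ˢ S).sup (fun z => f (z.1 - z.2)) :=
    Finset.le_sup (f := fun z : Zbar × Zbar => f (z.1 - z.2)) (b := (x, y))
      (Finset.mem_product.mpr ⟨hx, hy⟩)
  exact hf (x - y) h1 ℓ (lt_of_le_of_lt h2 hℓ) (by rw [map_sub, hxy, sub_self])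

/-- the `m`-th roots of unity, as algebraic integers -/
noncomputable def dsfRoots (m : ℕ) : Finset Zbar := Polynomial.nthRootsFinset m (1 : Zbar)

/-- the pairs `(α + β, α β)` of `m`-th roots of unity -/
noncomputable def dsfPairs (m : ℕ) : Finset (Zbar × Zbar) :=
  open Classical in
  (dsfRoots m ×ˢ dsfRoots m).image (fun z => (z.1 + z.2, z.1 * z.2))

/-- the components of the elements of `dsfPairs m` -/
noncomputable def dsfVals (m : ℕ) : Finset Zbar :=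
  open Classical in
  (dsfPairs m).image Prod.fst ∪ (dsfPairs m).image Prod.snd

theorem dsf_fst_mem_vals {m : ℕ} {y : Zbar × Zbar} (hy : y ∈ dsfPairs m) : y.1 ∈ dsfVals m := by
  classical
  exact Finset.mem_union_left _ (Finset.mem_image_of_mem _ hy)

theorem dsf_snd_mem_vals {m : ℕ} {y : Zbar × Zbar} (hy : y ∈ dsfPairs m) : y.2 ∈ dsfVals m := by
  classical
  exact Finset.mem_union_right _ (Finset.mem_image_of_mem _ hy)

/-- the complex lift of a residual representation with image of order `≤ A₀ < ℓ`: all its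
trace-determinant pairs lie in `dsfPairs (A₀)!` -/
theorem dsf_exists_lift (A₀ : ℕ) (ℓ : ℕ) [Fact ℓ.Prime] (hℓ : A₀ < ℓ)
    (ρbar : GQ →* GL (Fin 2) (ZMod ℓ)) (hcard : Nat.card ρbar.range ≤ A₀) :
    ∃ ρ : GQ →* GL (Fin 2) ℂ, ρ.ker = ρbar.ker ∧ ∀ g, ∃ y ∈ dsfPairs A₀.factorial,
      ((y.1 : Zbar) : ℂ) = (ρ g : Matrix (Fin 2) (Fin 2) ℂ).trace ∧
      ((y.2 : Zbar) : ℂ) = (ρ g : Matrix (Fin 2) (Fin 2) ℂ).det ∧
      dslRed ℓ y.1 = dslResMap ℓ (ρbar g : Matrix (Fin 2) (Fin 2) (ZMod ℓ)).trace ∧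
      dslRed ℓ y.2 = dslResMap ℓ (ρbar g : Matrix (Fin 2) (Fin 2) (ZMod ℓ)).det := by
  classical
  have : Finite (GL (Fin 2) (ZMod ℓ)) := inferInstance
  have : Finite ρbar.range := inferInstance
  have hpos : 0 < Nat.card ρbar.range := Nat.card_pos
  have hnd : ¬ ℓ ∣ Nat.card ρbar.range := fun h => by
    have := Nat.le_of_dvd hpos h
    omega
  obtain ⟨ρ, hker, hρ⟩ := dsl_exists_lift_complex ℓ ρbar hnd
  refine ⟨ρ, hker, fun g => ?_⟩
  obtain ⟨α, β, hα, hβ, htr, hdet, t, d, ht, hd, hrt, hrd⟩ := hρ g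
  obtain ⟨k, hk⟩ := Nat.dvd_factorial hpos hcard
  have hmpos : 0 < A₀.factorial := Nat.factorial_pos A₀
  have hα' : α ^ A₀.factorial = 1 := by rw [hk, pow_mul, hα, one_pow]
  have hβ' : β ^ A₀.factorial = 1 := by rw [hk, pow_mul, hβ, one_pow]
  have hαi : IsIntegral ℤ α := IsIntegral.of_pow hmpos (by rw [hα']; exact isIntegral_one)
  have hβi : IsIntegral ℤ β := IsIntegral.of_pow hmpos (by rw [hβ']; exact isIntegral_one)
  set αz : Zbar := ⟨α, hαi⟩ with hαz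
  set βz : Zbar := ⟨β, hβi⟩ with hβz
  have hαm : αz ∈ dsfRoots A₀.factorial := by
    rw [dsfRoots, Polynomial.mem_nthRootsFinset hmpos]
    exact Subtype.ext (by simpa [hαz] using hα')
  have hβm : βz ∈ dsfRoots A₀.factorial := by
    rw [dsfRoots, Polynomial.mem_nthRootsFinset hmpos]
    exact Subtype.ext (by simpa [hβz] using hβ')
  have e1 : αz + βz = t := Subtype.ext (by rw [ht, htr]; rfl)
  have e2 : αz * βz = d := Subtype.ext (by rw [hd, hdet]; rfl)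
  refine ⟨(αz + βz, αz * βz), ?_, ?_, ?_, ?_, ?_⟩
  · rw [dsfPairs]
    exact Finset.mem_image.mpr ⟨(αz, βz), Finset.mem_product.mpr ⟨hαm, hβm⟩, rfl⟩
  · show ((αz + βz : Zbar) : ℂ) = _
    rw [e1, ht]
  · show ((αz * βz : Zbar) : ℂ) = _
    rw [e2, hd]
  · show dslRed ℓ (αz + βz) = _
    rw [e1, hrt]
  · show dslRed ℓ (αz * βz) = _
    rw [e2, hrd]

/-- a homomorphism with the same kernel as one of finite level is of finite level -/
theorem dsf_level_of_ker_eq {M M' : Type} [Group M] [Group M'] (ρ : GQ →* M) (ρ' : GQ →* M')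
    (hker : ρ.ker = ρ'.ker) (h : GaloisFactorsThroughFiniteLevel ρ') :
    GaloisFactorsThroughFiniteLevel ρ := by
  obtain ⟨L, hL, hρ'⟩ := h
  refine ⟨L, hL, fun σ hσ => ?_⟩
  have : σ ∈ ρ'.ker := MonoidHom.mem_ker.mpr (hρ' σ hσ)
  rw [← hker] at this
  exact MonoidHom.mem_ker.mp this

/-- **(DS-7)**: from residual representations with uniformly bounded images modulo infinitely
many `ℓ` to a complex representation of finite level attached to `(a, e)` outside `T` -/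
theorem dsf_exists_attached (T : Finset ℕ) (a e : ℕ → ℂ) (A₀ : ℕ)
    (hres : DsfResidualInf T a e)
    (hb : ∀ (ℓ : ℕ) [Fact ℓ.Prime] (ρbar : GQ →* GL (Fin 2) (ZMod ℓ)),
      DsfResidual T a e ℓ ρbar → Nat.card ρbar.range ≤ A₀) :
    ∃ ρ : GQ →* GL (Fin 2) ℂ, GaloisFactorsThroughFiniteLevel ρ ∧ DsfAttached (↑T) a e ρ := by
  classical
  set m := A₀.factorial with hm
  -- every `(a p, e p)` lies in `dsfPairs m`
  have hmem : ∀ p : ℕ, p.Prime → p ∉ T →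
      ∃ y ∈ dsfPairs m, ((y.1 : Zbar) : ℂ) = a p ∧ ((y.2 : Zbar) : ℂ) = e p := by
    intro p hp hpT
    obtain ⟨A, σ, hA, hσ⟩ := Fermat.Agent.Lib.Helper6.exists_frobenius p hp
    obtain ⟨ℓ₀, hℓ₀, ρ₀, hℓ₀p, hres₀⟩ := hres p
    haveI := hℓ₀
    obtain ⟨t, d, ht, hd, -, -⟩ := (hres₀.attached p hp hpT (ne_of_lt hℓ₀p) A hA).2 σ hσ
    obtain ⟨B, hB⟩ := dsf_exists_bound_injOn (insert t (insert d (dsfVals m)))
    obtain ⟨ℓ, hℓ, ρbar, hℓB, hresℓ⟩ := hres (max (max A₀ p) B)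
    haveI := hℓ
    have h1 : A₀ < ℓ := lt_of_le_of_lt ((le_max_left _ _).trans (le_max_left _ _)) hℓB
    have h2 : p ≠ ℓ := ne_of_lt (lt_of_le_of_lt ((le_max_right _ _).trans (le_max_left _ _)) hℓB)
    have h3 : B < ℓ := lt_of_le_of_lt (le_max_right _ _) hℓB
    obtain ⟨ρ, -, hρ⟩ := dsf_exists_lift A₀ ℓ h1 ρbar (hb ℓ ρbar hresℓ)
    obtain ⟨y, hy, -, -, hy1, hy2⟩ := hρ σ
    obtain ⟨t', d', ht', hd', hrt, hrd⟩ := (hresℓ.attached p hp hpT h2 A hA).2 σ hσ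
    have et : t' = t := Subtype.ext (ht'.trans ht.symm)
    have ed : d' = d := Subtype.ext (hd'.trans hd.symm)
    rw [et] at hrt
    rw [ed] at hrd
    have hy1m : y.1 ∈ insert t (insert d (dsfVals m)) :=
      Finset.mem_insert_of_mem (Finset.mem_insert_of_mem (dsf_fst_mem_vals hy))
    have hy2m : y.2 ∈ insert t (insert d (dsfVals m)) :=
      Finset.mem_insert_of_mem (Finset.mem_insert_of_mem (dsf_snd_mem_vals hy))
    have htm : t ∈ insert t (insert d (dsfVals m)) := Finset.mem_insert_self _ _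
    have hdm : d ∈ insert t (insert d (dsfVals m)) :=
      Finset.mem_insert_of_mem (Finset.mem_insert_self _ _)
    refine ⟨y, hy, ?_, ?_⟩
    · rw [← ht, hB ℓ h3 y.1 hy1m t htm (hy1.trans hrt.symm)]
    · rw [← hd, hB ℓ h3 y.2 hy2m d hdm (hy2.trans hrd.symm)]
  -- for large `ℓ` the lift is attached to `(a, e)` outside `T ∪ {ℓ}`
  obtain ⟨B, hB⟩ := dsf_exists_bound_injOn (dsfVals m)
  have hlift : ∀ (ℓ : ℕ) [Fact ℓ.Prime] (ρbar : GQ →* GL (Fin 2) (ZMod ℓ)), max A₀ B < ℓ →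
      DsfResidual T a e ℓ ρbar → ∃ ρ : GQ →* GL (Fin 2) ℂ,
        GaloisFactorsThroughFiniteLevel ρ ∧ DsfAttached (↑(insert ℓ T)) a e ρ := by
    intro ℓ _ ρbar hℓ hresℓ
    have h1 : A₀ < ℓ := lt_of_le_of_lt (le_max_left _ _) hℓ
    have h3 : B < ℓ := lt_of_le_of_lt (le_max_right _ _) hℓ
    obtain ⟨ρ, hker, hρ⟩ := dsf_exists_lift A₀ ℓ h1 ρbar (hb ℓ ρbar hresℓ)
    refine ⟨ρ, dsf_level_of_ker_eq ρ ρbar hker hresℓ.level, ?_⟩
    intro p hp hpT A hA
    have hpT' : p ∉ T := fun h => hpT (Finset.mem_coe.mpr (Finset.mem_insert_of_mem h))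
    have hpℓ : p ≠ ℓ := fun h => hpT (Finset.mem_coe.mpr (h ▸ Finset.mem_insert_self _ _))
    obtain ⟨hin, hfr⟩ := hresℓ.attached p hp hpT' hpℓ A hA
    refine ⟨fun σ hσ => ?_, fun σ hσ => ?_⟩
    · have : σ ∈ ρbar.ker := MonoidHom.mem_ker.mpr (hin σ hσ)
      rw [← hker] at this
      exact MonoidHom.mem_ker.mp this
    · obtain ⟨y, hy, hy1, hy2, hr1, hr2⟩ := hρ σ
      obtain ⟨y', hy', hy1', hy2'⟩ := hmem p hp hpT'
      obtain ⟨t, d, ht, hd, hrt, hrd⟩ := hfr σ hσ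
      have et : t = y'.1 := Subtype.ext (ht.trans hy1'.symm)
      have ed : d = y'.2 := Subtype.ext (hd.trans hy2'.symm)
      rw [et] at hrt
      rw [ed] at hrd
      have e1 : y.1 = y'.1 :=
        hB ℓ h3 y.1 (dsf_fst_mem_vals hy) y'.1 (dsf_fst_mem_vals hy') (hr1.trans hrt.symm)
      have e2 : y.2 = y'.2 :=
        hB ℓ h3 y.2 (dsf_snd_mem_vals hy) y'.2 (dsf_snd_mem_vals hy') (hr2.trans hrd.symm)
      exact ⟨by rw [← hy1, e1, hy1'], by rw [← hy2, e2, hy2']⟩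
  -- two primes and the gluing lemma
  obtain ⟨ℓ₁, hℓ₁, ρbar₁, hℓ₁B, hres₁⟩ := hres (max A₀ B)
  obtain ⟨ℓ₂, hℓ₂, ρbar₂, hℓ₂B, hres₂⟩ := hres (max (max A₀ B) ℓ₁)
  have hℓ₂B' : max A₀ B < ℓ₂ := lt_of_le_of_lt (le_max_left _ _) hℓ₂B
  have hne : ℓ₁ ≠ ℓ₂ := ne_of_lt (lt_of_le_of_lt (le_max_right _ _) hℓ₂B)
  obtain ⟨ρ₁, hlev₁, hatt₁⟩ := @hlift ℓ₁ hℓ₁ ρbar₁ hℓ₁B hres₁
  obtain ⟨ρ₂, hlev₂, hatt₂⟩ := @hlift ℓ₂ hℓ₂ ρbar₂ hℓ₂B' hres₂
  refine ⟨ρ₁, hlev₁, (dsf_glue hlev₁ hlev₂ hatt₁ hatt₂).mono ?_⟩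
  rintro p ⟨hp1, hp2⟩
  rw [Finset.mem_coe, Finset.mem_insert] at hp1 hp2
  rcases hp1 with h1 | h1
  · rcases hp2 with h2 | h2
    · exact absurd (h1.symm.trans h2) hne
    · exact Finset.mem_coe.mpr h2
  · exact Finset.mem_coe.mpr h1

end Fermat.Agent.DS
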