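/-
DS-F (lead), file 6: **the final assembly of Deligne–Serre**, from black boxes.

* `dsf_core` : (DS-3)+(DS-5)+(DS-6)+(DS-7)+(DS-8) for abstract data `(T, a, e)`: weights `w` with a
  Rankin-type bound, a finite set `Y` containing the pairs `(a p, e p)` of small weight, the Rankin
  bound for `a`, and residual representations modulo infinitely many primes give an irreducible
  complex representation of finite level attached to `(a, e)` outside `T`;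
* `dsf_core_numberField` : the number-field packaging: `a p = ι₀ (α p)` with `α p` integers of a
  number field `K` all of whose conjugate families `φ ∘ α` satisfy the Rankin bound;
* `DsfData T a e` : the Prop packaging these inputs; `dsf_s48_of_inputs` : the statement of S48 from
  `DsfData T₁ a e`, `DsfData T₂ a e` with `T₁ ∩ T₂ ⊆ {p ∣ N}`.
-/
import Mathlib
import Fermat.Agent.Lib.DS.Final.Bound
import Fermat.Agent.Lib.DS.Final.Pigeon
import Fermat.Agent.Lib.DS.Final.Irred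

set_option autoImplicit false
set_option linter.style.haveILetI false

open Matrix

namespace Fermat.Agent.DS

local notation "Qbar" => AlgebraicClosure ℚ
local notation "GQ" => (AlgebraicClosure ℚ ≃ₐ[ℚ] AlgebraicClosure ℚ)

/-- **Deligne–Serre, abstract core** -/
theorem dsf_core (hcov : DsfChebCover) (hchar : DsfChebChars) (T : Finset ℕ) (a e : ℕ → ℂ)
    (w : ℕ → ℝ) (D C : ℝ) (hD : 0 < D)
    (hw : ∀ s : ℝ, 1 < s → s < 2 → ∀ P : Finset ℕ, (∀ p ∈ P, p.Prime ∧ p ∉ T) →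
      ∑ p ∈ P, w p * (p : ℝ) ^ (-s) ≤ D * Real.log (1 / (s - 1)) + C)
    (Y : Finset (ℂ × ℂ)) (hY : ∀ p : ℕ, p.Prime → p ∉ T → w p ≤ 120 * D → (a p, e p) ∈ Y)
    (hR : DsfRankin T a) (hres : DsfResidualInf T a e) :
    ∃ ρ : GQ →* GL (Fin 2) ℂ, GaloisFactorsThroughFiniteLevel ρ ∧
      (Deformation.matrixRepresentation ρ).IsIrreducible ∧ DsfAttached (↑T) a e ρ := by
  obtain ⟨ρ, hlev, hatt⟩ := dsf_exists_attached T a e
    (max (240 * Y.card) ((2 * Y.card + 1) ^ 4)) hres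
    (fun ℓ _ ρbar hρbar => dsf_card_range_le hcov T a e w D C hD hw Y hY ℓ ρbar hρbar)
  exact ⟨ρ, hlev, dsf_irreducible hchar T a e hR ρ hlev hatt, hatt⟩

/-- **Deligne–Serre, number-field form**: `a p = ι₀ (α p)` for integers `α p` of a number field `K`
such that all conjugate families `p ↦ φ (α p)` satisfy the Rankin bound; `e` has finitely many values -/
theorem dsf_core_numberField (hcov : DsfChebCover) (hchar : DsfChebChars) (T : Finset ℕ)
    (a e : ℕ → ℂ) (K : Type) [Field K] [NumberField K] (ι₀ : K →+* ℂ) (α : ℕ → K)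
    (hα : ∀ p : ℕ, p.Prime → p ∉ T → IsIntegral ℤ (α p) ∧ ι₀ (α p) = a p)
    (hRk : ∀ φ : K →+* ℂ, DsfRankin T (fun p => φ (α p)))
    (E : Finset ℂ) (hE : ∀ p : ℕ, p.Prime → p ∉ T → e p ∈ E)
    (hres : DsfResidualInf T a e) :
    ∃ ρ : GQ →* GL (Fin 2) ℂ, GaloisFactorsThroughFiniteLevel ρ ∧
      (Deformation.matrixRepresentation ρ).IsIrreducible ∧ DsfAttached (↑T) a e ρ := by
  classical
  choose Cφ hCφ using hRk
  set D : ℝ := (Fintype.card (K →+* ℂ) : ℝ) with hDdef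
  have hD : 0 < D := by
    rw [hDdef]
    exact_mod_cast Fintype.card_pos_iff.mpr ⟨ι₀⟩
  set w : ℕ → ℝ := fun p => ∑ φ : K →+* ℂ, ‖φ (α p)‖ ^ 2 with hwdef
  have hw : ∀ s : ℝ, 1 < s → s < 2 → ∀ P : Finset ℕ, (∀ p ∈ P, p.Prime ∧ p ∉ T) →
      ∑ p ∈ P, w p * (p : ℝ) ^ (-s) ≤ D * Real.log (1 / (s - 1)) + ∑ φ : K →+* ℂ, Cφ φ := by
    intro s hs1 hs2 P hP
    have h1 : ∑ p ∈ P, w p * (p : ℝ) ^ (-s)
        = ∑ φ : K →+* ℂ, ∑ p ∈ P, ‖φ (α p)‖ ^ 2 * (p : ℝ) ^ (-s) := by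
      rw [Finset.sum_comm]
      refine Finset.sum_congr rfl fun p _ => ?_
      rw [hwdef, Finset.sum_mul]
    rw [h1]
    have h2 : ∑ φ : K →+* ℂ, ∑ p ∈ P, ‖φ (α p)‖ ^ 2 * (p : ℝ) ^ (-s)
        ≤ ∑ φ : K →+* ℂ, (Real.log (1 / (s - 1)) + Cφ φ) :=
      Finset.sum_le_sum fun φ _ => hCφ φ s hs1 hs2 P hP
    refine h2.trans (le_of_eq ?_)
    rw [Finset.sum_add_distrib, Finset.sum_const, Finset.card_univ, nsmul_eq_mul]
  -- the finite set `Y`
  have hfin := NumberField.Embeddings.finite_of_norm_le K ℂ (120 * D + 1)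
  set Y : Finset (ℂ × ℂ) := (hfin.toFinset.image ι₀) ×ˢ E with hYdef
  have hY : ∀ p : ℕ, p.Prime → p ∉ T → w p ≤ 120 * D → (a p, e p) ∈ Y := by
    intro p hp hpT hwp
    rw [hYdef, Finset.mem_product]
    refine ⟨?_, hE p hp hpT⟩
    rw [← (hα p hp hpT).2]
    refine Finset.mem_image_of_mem _ ?_
    rw [Set.Finite.mem_toFinset]
    refine ⟨(hα p hp hpT).1, fun φ => ?_⟩
    have h1 : ‖φ (α p)‖ ^ 2 ≤ w p :=
      Finset.single_le_sum (f := fun φ : K →+* ℂ => ‖φ (α p)‖ ^ 2)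
        (fun ψ _ => sq_nonneg _) (Finset.mem_univ φ)
    have h2 : 0 ≤ ‖φ (α p)‖ := norm_nonneg _
    nlinarith
  -- the Rankin bound for `a`
  have hR : DsfRankin T a := by
    refine ⟨Cφ ι₀, fun s hs1 hs2 P hP => ?_⟩
    have h1 := hCφ ι₀ s hs1 hs2 P hP
    have h2 : ∑ p ∈ P, ‖a p‖ ^ 2 * (p : ℝ) ^ (-s)
        = ∑ p ∈ P, ‖ι₀ (α p)‖ ^ 2 * (p : ℝ) ^ (-s) :=
      Finset.sum_congr rfl fun p hp => by rw [(hα p (hP p hp).1 (hP p hp).2).2]
    rw [h2]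
    exact h1
  exact dsf_core hcov hchar T a e w D _ hD hw Y hY hR hres

/-- the inputs of Deligne–Serre for the data `(a, e)` outside the finite set `T` of primes -/
def DsfData (T : Finset ℕ) (a e : ℕ → ℂ) : Prop :=
  (∃ (K : Type) (_ : Field K) (_ : NumberField K) (ι₀ : K →+* ℂ) (α : ℕ → K),
    (∀ p : ℕ, p.Prime → p ∉ T → IsIntegral ℤ (α p) ∧ ι₀ (α p) = a p) ∧
    ∀ φ : K →+* ℂ, DsfRankin T (fun p => φ (α p))) ∧
  DsfResidualInf T a e

/-- **S48 from the inputs**: two instances of the data, outside finite sets `T₁`, `T₂` of primes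
whose intersection consists of divisors of `N` -/
theorem dsf_s48_of_inputs (hcov : DsfChebCover) (hchar : DsfChebChars)
    (N : ℕ) [NeZero N] (ε : DirichletCharacter ℂ N) (a : ℕ → ℂ)
    (T₁ T₂ : Finset ℕ) (hT : ∀ p : ℕ, p ∈ T₁ → p ∈ T₂ → p ∣ N)
    (h₁ : DsfData T₁ a (fun p => ε (p : ZMod N)))
    (h₂ : DsfData T₂ a (fun p => ε (p : ZMod N))) :
    ∃ ρ : GQ →* GL (Fin 2) ℂ, GaloisFactorsThroughFiniteLevel ρ ∧
      (Deformation.matrixRepresentation ρ).IsIrreducible ∧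
      ∀ p : ℕ, p.Prime → ¬ p ∣ N →
        ∀ A : ValuationSubring (AlgebraicClosure ℚ), A.LiesOverPrime p →
          (∀ σ ∈ A.inertiaSubgroupIn ℚ, ρ σ = 1) ∧
          ∀ σ : GQ, A.IsFrobeniusAt σ p →
            ((ρ σ : GL (Fin 2) ℂ) : Matrix (Fin 2) (Fin 2) ℂ).trace = a p ∧
            ((ρ σ : GL (Fin 2) ℂ) : Matrix (Fin 2) (Fin 2) ℂ).det = ε (p : ZMod N) := by
  classical
  have hEfin : (Set.range (ε : ZMod N → ℂ)).Finite := Set.finite_range _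
  have hE : ∀ (T : Finset ℕ) (p : ℕ), p.Prime → p ∉ T →
      (fun p : ℕ => ε (p : ZMod N)) p ∈ hEfin.toFinset := by
    intro T p _ _
    rw [Set.Finite.mem_toFinset]
    exact ⟨_, rfl⟩
  obtain ⟨⟨K₁, i1, i2, ι₁, α₁, hα₁, hRk₁⟩, hres₁⟩ := h₁
  obtain ⟨⟨K₂, j1, j2, ι₂, α₂, hα₂, hRk₂⟩, hres₂⟩ := h₂
  obtain ⟨ρ₁, hlev₁, hirr₁, hatt₁⟩ := dsf_core_numberField hcov hchar T₁ a _ K₁ ι₁ α₁ hα₁ hRk₁
    hEfin.toFinset (hE T₁) hres₁
  obtain ⟨ρ₂, hlev₂, -, hatt₂⟩ := dsf_core_numberField hcov hchar T₂ a _ K₂ ι₂ α₂ hα₂ hRk₂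
    hEfin.toFinset (hE T₂) hres₂
  refine ⟨ρ₁, hlev₁, hirr₁, fun p hp hpN A hA => ?_⟩
  have hglue := dsf_glue hlev₁ hlev₂ hatt₁ hatt₂
  exact hglue p hp (fun h => hpN (hT p (Finset.mem_coe.mp h.1) (Finset.mem_coe.mp h.2))) A hA

end Fermat.Agent.DS
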