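/-
DS final glue (helper7): **S48 from the split primes**.  For `f ∈ S₁(Γ₁(N))` normalised with the
Hecke relations of S48 for the character `ε`, and a level `M` with `N ∣ M`, `6 ≤ M`,
`4 ∣ M ∨ 9 ∣ M` carrying a unit form, the data `DsfData M.primeFactors a ε` of Deligne–Serre:
first half from the rationality package (`dsq_dsfData_fst`: X1 `dsq_conj_two`, X2 `dsq_span`,
`dsq_conj_one`), second half from the residual representations (`dsv_residualInf`:
`tgz_gamma1Res_final`, `dse_dsvProduct`) applied to the depleted form of `dsq_main`.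
Then `dsf_s48_of_inputs` at the two levels `9 N` and `8 N`.
-/
import Mathlib
import Fermat.Agent.Lib.DS.Rat.Main
import Fermat.Agent.Lib.DS.Rat.ConjOne
import Fermat.Agent.Lib.DS.Rat.ConjTwoFinal
import Fermat.Agent.Lib.DS.Rat.Span
import Fermat.Agent.Lib.DS.Rat.SplitDefs
import Fermat.Agent.Lib.DS.Res.Main
import Fermat.Agent.Lib.DS.Eis1.Glue
import Fermat.Agent.Lib.DS.Eis1.Unit
import Fermat.Agent.Lib.DS.Cheb.Cross.Final
import Fermat.Agent.Lib.DS.Hecke.Level
import Fermat.Agent.Lib.T1G.Mono.FinalMain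

set_option autoImplicit false
set_option linter.style.haveILetI false
set_option linter.unusedSectionVars false

open CongruenceSubgroup ModularFormClass

namespace Fermat.Agent.DS

local notation "GQ" => (AlgebraicClosure ℚ ≃ₐ[ℚ] AlgebraicClosure ℚ)

/-- **the Deligne–Serre data at a level `M`**, `N ∣ M` -/
theorem dsf_data_of_level (hsplit : DsqSplit) {N : ℕ} [NeZero N] (ε : DirichletCharacter ℂ N)
    (f : CuspForm (Gamma1 N) 1) (hf₁ : qCoeff f 1 = 1) (hT : DsqHecke ε f)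
    (M : ℕ) [NeZero M] (hNM : N ∣ M) (hM6 : 6 ≤ M) (hM49 : 4 ∣ M ∨ 9 ∣ M)
    (hφ : DsqUnitForm M) :
    DsfData M.primeFactors (fun p => qCoeff f p) (fun p => ε (p : ZMod N)) := by
  classical
  set εM := DirichletCharacter.changeLevel hNM ε with hεM
  set fM : CuspForm (Gamma1 M) 1 := dshLevelIncl 1 hNM f with hfM
  have hq : ∀ n, qCoeff fM n = qCoeff f n := fun n => rfl
  have hfM₁ : qCoeff fM 1 = 1 := hf₁
  have hTM : DsqHecke εM fM := by
    intro p hp hpM n
    have hpN : ¬ p ∣ N := fun h => hpM (h.trans hNM)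
    rw [hεM, dsq_changeLevel_natCast hNM ε hp hpM]
    exact hT p hp hpN n
  have hQ : ∀ (M' : ℕ) [NeZero M'], M ∣ M' → M'.primeFactors = M.primeFactors →
      DsqConj M' 1 := by
    intro M' _ hMM' _
    have h6 : 6 ≤ M' :=
      le_trans hM6 (Nat.le_of_dvd (Nat.pos_of_ne_zero (NeZero.ne M')) hMM')
    exact dsq_conj_one M' (hφ.of_dvd hMM') (dsq_conj_two M' h6)
  have hS : ∀ (M' : ℕ) [NeZero M'], M ∣ M' → M'.primeFactors = M.primeFactors →
      DsqSpan M' := fun M' _ _ _ => dsq_span M'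
  refine ⟨?_, ?_⟩
  · exact dsq_dsfData_fst εM fM hfM₁ hTM hQ hS hφ
  · obtain ⟨M', hM', hMM', hpf, f₀, hf₀₁, hT₀, hf₀, hint, K, hKfin, hKmem, -, -⟩ :=
      dsq_main εM fM hfM₁ hTM hQ hS hφ
    haveI := hM'
    have hres := dsv_residualInf Fermat.Agent.T1G.tgz_gamma1Res_final dse_dsvProduct
      (hM49.imp (fun h => h.trans hMM') (fun h => h.trans hMM'))
      (DirichletCharacter.changeLevel hMM' εM) f₀ hf₀₁ hT₀ hint
      (fun B => by
        obtain ⟨ℓ, hℓ, hB, h⟩ := hsplit K hKfin B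
        refine ⟨ℓ, hℓ, hB, fun z hz => h z ?_⟩
        obtain ⟨n, hn⟩ := hz
        obtain ⟨c, hc⟩ := hKmem n
        exact ⟨c, hc.trans hn.symm⟩)
      (fun p => qCoeff f p) (fun p => ε (p : ZMod N))
      (fun p hp hpM' => by
        have hpM : ¬ p ∣ M := fun h => hpM' (h.trans hMM')
        show qCoeff f p = qCoeff f₀ p
        rw [hf₀ p, if_pos ((Nat.Prime.coprime_iff_not_dvd hp).mpr hpM), hq])
      (fun p hp hpM' => by
        have hpM : ¬ p ∣ M := fun h => hpM' (h.trans hMM')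
        show ε (p : ZMod N) = _
        rw [dsq_changeLevel_natCast hMM' εM hp hpM', hεM,
          dsq_changeLevel_natCast hNM ε hp hpM])
    rw [hpf] at hres
    exact hres

/-- **S48 from the split primes** -/
theorem dsf_s48_of_split (hsplit : DsqSplit) (N : ℕ) [NeZero N] (ε : DirichletCharacter ℂ N)
    (f : CuspForm (Gamma1 N) 1) (hf₁ : qCoeff f 1 = 1)
    (hT : ∀ p : ℕ, p.Prime → ¬ p ∣ N → ∀ n : ℕ,
      qCoeff f (p * n) + ε (p : ZMod N) * (if p ∣ n then qCoeff f (n / p) else 0) =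
        qCoeff f p * qCoeff f n) :
    ∃ ρ : GQ →* GL (Fin 2) ℂ, GaloisFactorsThroughFiniteLevel ρ ∧
      (Deformation.matrixRepresentation ρ).IsIrreducible ∧
      ∀ p : ℕ, p.Prime → ¬ p ∣ N →
        ∀ A : ValuationSubring (AlgebraicClosure ℚ), A.LiesOverPrime p →
          (∀ σ ∈ A.inertiaSubgroupIn ℚ, ρ σ = 1) ∧
          ∀ σ : GQ, A.IsFrobeniusAt σ p →
            ((ρ σ : GL (Fin 2) ℂ) : Matrix (Fin 2) (Fin 2) ℂ).trace = qCoeff f p ∧
            ((ρ σ : GL (Fin 2) ℂ) : Matrix (Fin 2) (Fin 2) ℂ).det = ε (p : ZMod N) := by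
  have hN : 0 < N := Nat.pos_of_ne_zero (NeZero.ne N)
  haveI : NeZero (9 * N) := ⟨by positivity⟩
  haveI : NeZero (8 * N) := ⟨by positivity⟩
  have h₁ : DsfData (9 * N).primeFactors (fun p => qCoeff f p) (fun p => ε (p : ZMod N)) :=
    dsf_data_of_level hsplit ε f hf₁ hT (9 * N) (Dvd.intro_left 9 rfl) (by omega)
      (Or.inr (Dvd.intro N rfl))
      (dse_unitForm_three.of_dvd (Dvd.intro (3 * N) (by ring)))
  have h₂ : DsfData (8 * N).primeFactors (fun p => qCoeff f p) (fun p => ε (p : ZMod N)) :=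
    dsf_data_of_level hsplit ε f hf₁ hT (8 * N) (Dvd.intro_left 8 rfl) (by omega)
      (Or.inl (Dvd.intro (2 * N) (by ring)))
      (dse_unitForm_four.of_dvd (Dvd.intro (2 * N) (by ring)))
  refine dsf_s48_of_inputs dsx_chebCover_final dsx_chebChars_final N ε (fun p => qCoeff f p)
    (9 * N).primeFactors (8 * N).primeFactors ?_ h₁ h₂
  intro p hp9 hp8
  have h9 := Nat.dvd_of_mem_primeFactors hp9
  have h8 := Nat.dvd_of_mem_primeFactors hp8
  have : p ∣ 9 * N - 8 * N := Nat.dvd_sub h9 h8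
  have e : 9 * N - 8 * N = N := by omega
  rwa [e] at this

end Fermat.Agent.DS
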